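import Fermat.Agent.S48.TNV.Kc.Defs
import Fermat.Agent.S48.TNV.MultAbs
import Fermat.Agent.S48.TC24.Cards

set_option autoImplicit false

/-!
# NV task T1-Charts (TWIN FILE: read the header of `NV/Kc/Defs.lean`)

Every place of `FN N` is seen by a chart, with known multiplicity.

SKETCH.  `mult_aux` is to `exists_mult_theta` (`NV/MultAbs.lean`) what `CardsC.card_aux` is to
`card_places_eq_card_orbits_theta` (`S24/CardsC.lean`): same proof (take `Q = SL(2,ℤ) ⧸ Γ₀(N)`, `θ = thetaQ N c`, write `q = g Γ₀(N)` with `g = q.out`,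
`thetaQ_mk`; `ε ^ k • (g Γ₀) = g Γ₀ ↔ g⁻¹ ε^k g ∈ Γ₀(N)`).
`exists_chart`: let `v` be a place.  If `v.ord (jF N) < 0`, use the data of `card_places_infty`
(`cuspChart`, `x = (jF N)⁻¹`, `e₀ = N`, `ε = T`).  Otherwise there is `c : Kc` with `0 < v.ord (jF N - c)`
(`exists_const_sub` in `S24/Residue.lean`); use the data of `card_places_generic` (`e₀ = 1`, so `μ = 1`),
`card_places_1728` (`e₀ = 2`, `ε = S`: `(k, μ) = (2, 1)` or `(1, 2)`), `card_places_zero` (`e₀ = 3`, `ε = S T`: `(3, 1)` or `(1, 3)`).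
-/

open UpperHalfPlane ModularForm CongruenceSubgroup AlgebraicCurve IntermediateField
open scoped MatrixGroups Manifold

namespace Fermat.Agent.TC24

open Fermat.Agent.S24 hiding constK constK_apply act_constK twist_mem_range_coeffMap_iff
  twist_mem_range qExpand_mem_range rootU_mem_range expandC_jq_mem_range btilGens Btil
  constK_mem_Btil act_jd_mem_Btil jd_mem_Btil act_mem_Btil actB coe_actB Jser fGens A0 Jser_mem_A0
  FN Btil_le_holSub Btil_le_perSub TInf_Btil_mem_range TInf_jd mem_Gamma0_of_act_jd_eq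
open Fermat.Agent.C24 (Kc iotaC iotaCinv iotaC_iotaCinv iotaCinv_iotaC mem_range_iotaC constK
  constK_apply act_constK twist_mem_range_coeffMap_iff twist_mem_range qExpand_mem_range
  rootU_mem_range expandC_jq_mem_range Jser)
open Fermat.Agent.T24 (Cond Gam mem_Gam Gam_le yv te tb Tq act_ye_eq_pre pre_yv_mem_perSub mdiff_yv
  act_te te_neg act_te_of_mem_Gam pos_of_mul_dvd eq_one_or_of_te_eq mem_Gam_of_act_eq
  finiteIndex_Gam finite_quot_Gam)

open Fermat.Agent.T24.NV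

namespace Ch

theorem mult_aux (N : ℕ) [NeZero N] [Cond N] (c : Chart N) (x : FN N) (hx : Transcendental Kc x)
    (hadj : Kc⟮x⟯ = Kc⟮jF N⟯)
    (X : LaurentSeries ℂ) (hxx : ∀ g, theta N c g x = X)
    (e₀ : ℕ) (he₀ : 0 < e₀) (hx₀ : X.order = e₀)
    (ε : SL(2, ℤ)) (ζ : ℂ) (hζ : IsPrimitiveRoot ζ e₀)
    (hB : ∀ b : Btil N, b ≠ 0 → (c.onB (actB N ε b)).order = (c.onB b).order ∧
      (c.onB (actB N ε b)).leadingCoeff = ζ ^ (c.onB b).order * (c.onB b).leadingCoeff) :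
    (∀ v : Place Kc (FN N), 0 < v.ord x → ∃ (g : SL(2, ℤ)) (k : ℕ) (μ : ℤ), 0 < k ∧
      g⁻¹ * ε ^ k * g ∈ Gam N ∧ μ * k = e₀ ∧
      ∀ f : FN N, f ≠ 0 → (theta N c g f).order = μ * v.ord f) ∧
    (∀ g : SL(2, ℤ), ∃ (v : Place Kc (FN N)) (k : ℕ) (μ : ℤ), 0 < k ∧
      g⁻¹ * ε ^ k * g ∈ Gam N ∧ (∀ j : ℕ, g⁻¹ * ε ^ j * g ∈ Gam N → k ∣ j) ∧ μ * k = e₀ ∧
      ∀ f : FN N, f ≠ 0 → (theta N c g f).order = μ * v.ord f) := by
  haveI := CardsC.finite_Q N
  obtain ⟨pl, k, μ, h1, -, h3, h4⟩ := exists_mult_theta (isFF1_FN N) hx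
    (by rw [hadj, CardsC.card_Q]) (thetaQ N c) (thetaQ_injective N c)
    iotaC (fun q a => theta_const N c _ a) (fun q q' => (hxx _).trans (hxx _).symm) e₀ he₀
    (fun q => by rw [thetaQ, hxx, hx₀]) ε ζ hζ
    (fun q f hf => thetaQ_smul N c ε ζ (hζ.ne_zero he₀.ne') hB q f hf)
  have key : ∀ (g : SL(2, ℤ)) (j : ℕ),
      ε ^ j • (g : SL(2, ℤ) ⧸ Gam N) = g ↔ g⁻¹ * ε ^ j * g ∈ Gam N := by
    intro g j
    have e1 : ε ^ j • (g : SL(2, ℤ) ⧸ Gam N) = ((ε ^ j * g : SL(2, ℤ)) : SL(2, ℤ) ⧸ Gam N) :=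
      rfl
    rw [e1, eq_comm, QuotientGroup.eq, mul_assoc]
  constructor
  · intro v hv
    obtain ⟨q, rfl⟩ := h1 v hv
    obtain ⟨g, rfl⟩ := QuotientGroup.mk_surjective q
    obtain ⟨a1, a2, -, a4⟩ := h3 g
    exact ⟨g, k g, μ g, a1, (key g _).mp a2, a4, fun f hf => by
      rw [← thetaQ_mk]; exact h4 _ f hf⟩
  · intro g
    obtain ⟨a1, a2, a3, a4⟩ := h3 g
    exact ⟨pl g, k g, μ g, a1, (key g _).mp a2, fun j hj => a3 j ((key g j).mpr hj), a4,
      fun f hf => by rw [← thetaQ_mk]; exact h4 _ f hf⟩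

/-- the data of `card_places_generic`. -/
theorem mult_generic (N : ℕ) [NeZero N] [Cond N] (c : Kc) (h0 : c ≠ 0) (h1 : c ≠ 1728) :
    ∃ τ : ℍ, ∀ v : Place Kc (FN N), 0 < v.ord (jF N - algebraMap Kc (FN N) c) →
      ∃ g : SL(2, ℤ), ∀ f : FN N, f ≠ 0 → (theta N (ptChart N τ) g f).order = v.ord f := by
  obtain ⟨τ, hτ⟩ := jFun_surjective (iotaC c)
  have h0' : jFun τ ≠ 0 := by
    rw [hτ]; exact (map_ne_zero iotaC).mpr h0
  have h1' : jFun τ ≠ 1728 := by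
    rw [hτ]
    intro h
    apply h1
    apply iotaC.injective
    rw [h, map_ofNat]
  refine ⟨τ, fun v hv => ?_⟩
  obtain ⟨g, k, μ, hk, -, hμ, hf⟩ :=
    (mult_aux N (ptChart N τ) _ (RH.transcendental_sub_const (transcendental_jF N) c)
    (RH.adjoin_sub_const _ _) _ (fun g => CardsC.theta_sub_const N τ g c) 1 one_pos
    (by rw [← hτ]; exact_mod_cast order_TPt_jFun_sub τ h0' h1') 1 1 IsPrimitiveRoot.one
    (fun b _ => by
      have : actB N 1 b = b := by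
        ext1
        exact act_one _
      rw [this]
      simp)).1 v hv
  have hμ1 : μ = 1 := by
    have h2 : (k : ℤ) ∣ 1 := ⟨μ, by rw [mul_comm]; exact_mod_cast hμ.symm⟩
    have h3 : (k : ℤ) = 1 := Int.eq_one_of_dvd_one (by positivity) h2
    rw [h3, mul_one] at hμ
    exact_mod_cast hμ
  exact ⟨g, fun f hf0 => by rw [hf f hf0, hμ1, one_mul]⟩

/-- the data of `card_places_1728`. -/
theorem mult_1728 (N : ℕ) [NeZero N] [Cond N] :
    (∀ v : Place Kc (FN N), 0 < v.ord (jF N - algebraMap Kc (FN N) 1728) →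
      ∃ (g : SL(2, ℤ)) (k : ℕ) (μ : ℤ), 0 < k ∧
      g⁻¹ * ModularGroup.S ^ k * g ∈ Gam N ∧ μ * k = (2 : ℕ) ∧
      ∀ f : FN N, f ≠ 0 → (theta N (ptChart N I) g f).order = μ * v.ord f) ∧
    (∀ g : SL(2, ℤ), ∃ (v : Place Kc (FN N)) (k : ℕ) (μ : ℤ), 0 < k ∧
      g⁻¹ * ModularGroup.S ^ k * g ∈ Gam N ∧
      (∀ j : ℕ, g⁻¹ * ModularGroup.S ^ j * g ∈ Gam N → k ∣ j) ∧ μ * k = (2 : ℕ) ∧
      ∀ f : FN N, f ≠ 0 → (theta N (ptChart N I) g f).order = μ * v.ord f) := by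
  refine mult_aux N (ptChart N I) _ (RH.transcendental_sub_const (transcendental_jF N) _)
    (RH.adjoin_sub_const _ _) _ (fun g => CardsC.theta_sub_const N I g 1728) 2 two_pos
    ?_ ModularGroup.S (-1) (IsPrimitiveRoot.neg_one 0 (by norm_num)) (fun b hb => ?_)
  · have : iotaC 1728 = 1728 := map_ofNat iotaC 1728
    simp only [this]
    exact_mod_cast order_TPt_jFun_sub_I
  · have := CardsC.hB_pt N I ModularGroup.S S_smul_I b hb
    rwa [multiplier_S] at this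

/-- the data of `card_places_zero`. -/
theorem mult_zero (N : ℕ) [NeZero N] [Cond N] :
    (∀ v : Place Kc (FN N), 0 < v.ord (jF N - algebraMap Kc (FN N) 0) →
      ∃ (g : SL(2, ℤ)) (k : ℕ) (μ : ℤ), 0 < k ∧
      g⁻¹ * (ModularGroup.S * ModularGroup.T) ^ k * g ∈ Gam N ∧ μ * k = (3 : ℕ) ∧
      ∀ f : FN N, f ≠ 0 → (theta N (ptChart N rhoPt) g f).order = μ * v.ord f) ∧
    (∀ g : SL(2, ℤ), ∃ (v : Place Kc (FN N)) (k : ℕ) (μ : ℤ), 0 < k ∧
      g⁻¹ * (ModularGroup.S * ModularGroup.T) ^ k * g ∈ Gam N ∧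
      (∀ j : ℕ, g⁻¹ * (ModularGroup.S * ModularGroup.T) ^ j * g ∈ Gam N → k ∣ j) ∧
      μ * k = (3 : ℕ) ∧
      ∀ f : FN N, f ≠ 0 → (theta N (ptChart N rhoPt) g f).order = μ * v.ord f) := by
  refine mult_aux N (ptChart N rhoPt) _ (RH.transcendental_sub_const (transcendental_jF N) _)
    (RH.adjoin_sub_const _ _) _ (fun g => CardsC.theta_sub_const N rhoPt g 0) 3 (by norm_num)
    ?_ (ModularGroup.S * ModularGroup.T) _ multiplier_ST
    (fun b hb => CardsC.hB_pt N rhoPt _ ST_smul_rhoPt b hb)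
  have : iotaC 0 = 0 := map_zero iotaC
  simp only [this]
  exact_mod_cast order_TPt_jFun_sub_rhoPt

/-- the data of `card_places_infty`. -/
theorem mult_infty (N : ℕ) [NeZero N] [Cond N] :
    (∀ v : Place Kc (FN N), 0 < v.ord (jF N)⁻¹ →
      ∃ (g : SL(2, ℤ)) (k : ℕ) (μ : ℤ), 0 < k ∧
      g⁻¹ * ModularGroup.T ^ k * g ∈ Gam N ∧ μ * k = N ∧
      ∀ f : FN N, f ≠ 0 → (theta N (cuspChart N) g f).order = μ * v.ord f) ∧
    (∀ g : SL(2, ℤ), ∃ (v : Place Kc (FN N)) (k : ℕ) (μ : ℤ), 0 < k ∧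
      g⁻¹ * ModularGroup.T ^ k * g ∈ Gam N ∧
      (∀ j : ℕ, g⁻¹ * ModularGroup.T ^ j * g ∈ Gam N → k ∣ j) ∧ μ * k = N ∧
      ∀ f : FN N, f ≠ 0 → (theta N (cuspChart N) g f).order = μ * v.ord f) := by
  have hne : TInf N ⟨jFun, Btil_le_perSub N (jFun_mem_Btil N)⟩ ≠ 0 := by
    intro h
    have h2 := CardsC.order_TInf_jFun N
    rw [h, HahnSeries.order_zero] at h2
    have := NeZero.ne N
    omega
  refine mult_aux N (cuspChart N) _ (RH.transcendental_inv (transcendental_jF N))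
    (principal_adjoin_inv_eq _) (TInf N ⟨jFun, Btil_le_perSub N (jFun_mem_Btil N)⟩)⁻¹
    (fun g => by rw [map_inv₀, theta_jF, CardsC.cuspChart_onB]) N (Nat.pos_of_ne_zero (NeZero.ne N))
    (by rw [CardsC.order_inv' _ hne, CardsC.order_TInf_jFun, neg_neg]) ModularGroup.T _
    (isPrimitiveRoot_rootU N) (fun b _ => ?_)
  have h := TInf_act_T N ⟨b.1, Btil_le_perSub N b.2⟩
  rw [CardsC.cuspChart_onB, CardsC.cuspChart_onB]
  have h' : TInf N ⟨(actB N ModularGroup.T b : Btil N).1,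
      Btil_le_perSub N (actB N ModularGroup.T b).2⟩
      = twist (rootU N (-1)) (TInf N ⟨b.1, Btil_le_perSub N b.2⟩) := h
  rw [h', order_twist, leadingCoeff_twist]
  exact ⟨rfl, rfl⟩

/-- `μ * k = p`, `p` prime, `0 < k`: `(k, μ) = (1, p)` or `(p, 1)`. -/
theorem mul_eq_prime {p : ℕ} (hp : p.Prime) {k : ℕ} {μ : ℤ} (h : μ * k = (p : ℕ)) :
    (k = 1 ∧ μ = p) ∨ μ = 1 := by
  have h2 : k ∣ p := by
    have : (k : ℤ) ∣ (p : ℤ) := ⟨μ, by rw [mul_comm]; exact h.symm⟩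
    exact_mod_cast this
  rcases (Nat.dvd_prime hp).mp h2 with rfl | rfl
  · left
    exact ⟨rfl, by simpa using h⟩
  · right
    have hk : (k : ℤ) ≠ 0 := by exact_mod_cast hp.ne_zero
    exact mul_right_cancel₀ hk (by rw [h, one_mul])

/-- every place is seen by a chart: unramified point, elliptic point of order 2, elliptic point of order 3, cusp. -/
theorem exists_chart (N : ℕ) [NeZero N] [Cond N] (v : Place Kc (FN N)) :
    (∃ (τ : ℍ) (g : SL(2, ℤ)), ∀ f : FN N, f ≠ 0 → (theta N (ptChart N τ) g f).order = v.ord f) ∨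
    (∃ g : SL(2, ℤ), g⁻¹ * ModularGroup.S * g ∈ Gam N ∧
      ∀ f : FN N, f ≠ 0 → (theta N (ptChart N I) g f).order = 2 * v.ord f) ∨
    (∃ g : SL(2, ℤ), g⁻¹ * (ModularGroup.S * ModularGroup.T) * g ∈ Gam N ∧
      ∀ f : FN N, f ≠ 0 → (theta N (ptChart N rhoPt) g f).order = 3 * v.ord f) ∨
    (∃ (g : SL(2, ℤ)) (k : ℕ) (μ : ℤ), 0 < k ∧ g⁻¹ * ModularGroup.T ^ k * g ∈ Gam N ∧
      μ * k = N ∧ ∀ f : FN N, f ≠ 0 → (theta N (cuspChart N) g f).order = μ * v.ord f) := by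
  rcases lt_or_ge (v.ord (jF N)) 0 with hneg | hpos
  · right; right; right
    exact (mult_infty N).1 v (by rw [Place.ord_inv]; omega)
  obtain ⟨c, hc | hc⟩ := exists_const_sub (isFF1_FN N) v hpos
  · exact absurd (hc ▸ isAlgebraic_algebraMap c) (transcendental_jF N)
  by_cases h0 : c = 0
  · subst h0
    obtain ⟨g, k, μ, -, hg, hμ, hf⟩ := (mult_zero N).1 v hc
    rcases mul_eq_prime Nat.prime_three hμ with ⟨rfl, rfl⟩ | rfl
    · right; right; left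
      exact ⟨g, by simpa using hg, fun f hf0 => by rw [hf f hf0]; norm_num⟩
    · left
      exact ⟨rhoPt, g, fun f hf0 => by rw [hf f hf0, one_mul]⟩
  by_cases h1 : c = 1728
  · subst h1
    obtain ⟨g, k, μ, -, hg, hμ, hf⟩ := (mult_1728 N).1 v hc
    rcases mul_eq_prime Nat.prime_two hμ with ⟨rfl, rfl⟩ | rfl
    · right; left
      exact ⟨g, by simpa using hg, fun f hf0 => by rw [hf f hf0]; norm_num⟩
    · left
      exact ⟨I, g, fun f hf0 => by rw [hf f hf0, one_mul]⟩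
  · left
    obtain ⟨τ, hτ⟩ := mult_generic N c h0 h1
    obtain ⟨g, hg⟩ := hτ v hc
    exact ⟨τ, g, hg⟩

/-- the place attached to an elliptic point of order 2 of `Γ₀(N)`. -/
theorem exists_place_S (N : ℕ) [NeZero N] [Cond N] (g : SL(2, ℤ)) (hg : g⁻¹ * ModularGroup.S * g ∈ Gam N) :
    ∃ v : Place Kc (FN N), ∀ f : FN N, f ≠ 0 → (theta N (ptChart N I) g f).order = 2 * v.ord f := by
  obtain ⟨v, k, μ, -, -, hk, hμ, hf⟩ := (mult_1728 N).2 g
  have hk1 : k = 1 := Nat.dvd_one.mp (hk 1 (by simpa using hg))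
  subst hk1
  have hμ2 : μ = 2 := by simpa using hμ
  exact ⟨v, fun f hf0 => by rw [hf f hf0, hμ2]⟩

/-- the place attached to an elliptic point of order 3 of `Γ₀(N)`. -/
theorem exists_place_ST (N : ℕ) [NeZero N] [Cond N] (g : SL(2, ℤ))
    (hg : g⁻¹ * (ModularGroup.S * ModularGroup.T) * g ∈ Gam N) :
    ∃ v : Place Kc (FN N), ∀ f : FN N, f ≠ 0 →
      (theta N (ptChart N rhoPt) g f).order = 3 * v.ord f := by
  obtain ⟨v, k, μ, -, -, hk, hμ, hf⟩ := (mult_zero N).2 g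
  have hk1 : k = 1 := Nat.dvd_one.mp (hk 1 (by simpa using hg))
  subst hk1
  have hμ2 : μ = 3 := by simpa using hμ
  exact ⟨v, fun f hf0 => by rw [hf f hf0, hμ2]⟩

/-- the place attached to a cusp of `Γ₀(N)`; `k` is the width. -/
theorem exists_place_T (N : ℕ) [NeZero N] [Cond N] (g : SL(2, ℤ)) :
    ∃ (v : Place Kc (FN N)) (k : ℕ) (μ : ℤ), 0 < k ∧ g⁻¹ * ModularGroup.T ^ k * g ∈ Gam N ∧
      (∀ j : ℕ, g⁻¹ * ModularGroup.T ^ j * g ∈ Gam N → k ∣ j) ∧ μ * k = N ∧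
      ∀ f : FN N, f ≠ 0 → (theta N (cuspChart N) g f).order = μ * v.ord f :=
  (mult_infty N).2 g

end Ch

end Fermat.Agent.TC24
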