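import Fermat.Agent.S48.TNV.Defs
import Fermat.Agent.S48.TC24.Cards

set_option autoImplicit false

/-!
# NV, field dependent definitions (TWIN FILE)

All files `Fermat/Agent/NV/Kc/*.lean` are written for the constant field `Kc = ℚ̄` (names of `Fermat.Agent.S24`);
the files `Fermat/Agent/NV/Kc/*.lean` are generated from them MECHANICALLY (by helper27) for the constant field `Kc = ℂ`
(names of `Fermat.Agent.C24`) by the substitutions
`Kc ↦ Kc`, `iotaC ↦ iotaC`, `ModularCurve.modularFunctionFieldBar ↦ mffC`,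
`namespace Fermat.Agent.S24 ↦ namespace Fermat.Agent.C24` + `open Fermat.Agent.S24`,
`import Fermat.Agent.S48.TC24.Cards ↦ import Fermat.Agent.S48.TC24.Cards`, `Fermat.Agent.NV.Kc ↦ Fermat.Agent.NV.Kc`, `CardsC. ↦ CardsC.`.
So in these files: use only properties of `Kc`, `iotaC` which also hold for `Kc`, `iotaC` (a field embedding of an
algebraically closed field of characteristic zero in `ℂ`) and only cite lemmas of `Fermat.Agent.S24`, never write the
prefix `Fermat.Agent.S24.` or `S24.` explicitly, and do not use `AlgebraicClosure ℚ` directly.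
-/

open UpperHalfPlane ModularForm CongruenceSubgroup AlgebraicCurve
open scoped MatrixGroups Manifold

namespace Fermat.Agent.TC24

open Fermat.Agent.S24 hiding constK constK_apply act_constK twist_mem_range_coeffMap_iff
  twist_mem_range qExpand_mem_range rootU_mem_range expandC_jq_mem_range btilGens Btil
  constK_mem_Btil act_jd_mem_Btil jd_mem_Btil act_mem_Btil actB coe_actB Jser fGens A0 Jser_mem_A0
  FN Btil_le_holSub Btil_le_perSub TInf_Btil_mem_range TInf_jd mem_Gamma0_of_act_jd_eq
open Fermat.Agent.C24 (Kc iotaC iotaCinv iotaC_iotaCinv iotaCinv_iotaC mem_range_iotaC constK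
  constK_apply act_constK twist_mem_range_coeffMap_iff twist_mem_range qExpand_mem_range
  rootU_mem_range expandC_jq_mem_range Jser)
open Fermat.Agent.T24 (Cond Gam mem_Gam Gam_le yv te tb Tq act_ye_eq_pre pre_yv_mem_perSub mdiff_yv
  act_te te_neg act_te_of_mem_Gam pos_of_mul_dvd eq_one_or_of_te_eq mem_Gam_of_act_eq
  finiteIndex_Gam finite_quot_Gam)

open Fermat.Agent.T24.NV

namespace Ch

/-- `h` is a holomorphic `m`-th root of (the function on `ℍ` defined by) `a`. -/
def IsRoot (N : ℕ) [NeZero N] [Cond N] (m : ℕ) (a : A0 N) (h : ℍ → ℂ) : Prop :=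
  MDiff h ∧ ∀ z, h z ^ m = (PhiB N a : ℍ → ℂ) z

/-- up to `m`-th powers, `f = h ^ m` with `h` holomorphic on `ℍ` and `h (γ z) = χ γ * h z`. -/
def HasChar (N : ℕ) [NeZero N] [Cond N] (m : ℕ) (f : FN N) (χ : Chr N) : Prop :=
  ∃ (a : A0 N) (w : FN N) (h : ℍ → ℂ), a ≠ 0 ∧ w ≠ 0 ∧ thetaIncl N a = f * w ^ m ∧
    IsRoot N m a h ∧ IsEqv N χ h

/-- the divisor of `f` is divisible by `m`. -/
def DivBy (N : ℕ) [Cond N] (m : ℕ) (f : FN N) : Prop :=
  ∀ v : Place Kc (FN N), (m : ℤ) ∣ v.ord f

end Ch

end Fermat.Agent.TC24
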