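import Fermat.Agent.S48.TNV.Kc.Charts
import Fermat.Agent.S48.TNV.Kc.Basic
import Fermat.Agent.S48.TNV.RootPer
import Fermat.Agent.S48.TC24.Cards

set_option autoImplicit false

/-!
# NV task T4-DivA (TWIN FILE: read the header of `NV/Kc/Defs.lean`)

If the character of `f` is trivial on the elements of small trace, the divisor of `f` is divisible by `m`.

SKETCH.  Data `(a, w, h)`; `v.ord (thetaIncl a) = v.ord f + m * v.ord w`, so it suffices to treat `thetaIncl a`.  Let `v` be a place; use `exists_chart`.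
With `H = act g h` (holomorphic), `theta N c g (thetaIncl a) = c.onB (actB g (PhiB a))` (`theta_incl`) `= (T H) ^ m` where `T = TPt τ` resp. `TInf N`,
so its order is `m * (T H).order`.
* unramified: done.
* `S`: `γ = g⁻¹ S g ∈ Γ₀(N)` has trace `0` (`smallTrace_conj`), so `χ γ = 1` and `act S H = act g (act γ h) = H` (`act_mul`, `IsEqv.act_eq`).  `TPt_act I S S_smul_I` and `multiplier_S` (see `card_places_1728`, `CardsC.hB_pt`) give
  `lc = (-1) ^ order * lc`, so `2 ∣ (TPt I H).order`; then `2 * v.ord = m * order` gives `m ∣ v.ord`.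
* `S T`: same with `multiplier_ST` (primitive cube root of unity), `3 ∣ order`.
* cusp: `h ∈ Wh N` by `mem_Wh_of_pow` (`h ^ m = PhiB a ∈ Btil N`, stable under `act`, `Btil_le_perSub`), so `H ∈ perSub N`.  `act (T ^ k) H = H` as before (trace `2`);
  `TInf_act_T` iterated `k` times: `TInf N H = twist (rootU N (-1)) ^ k (TInf N H)`, compare leading coefficients (`leadingCoeff_twist`): `ζ_N ^ (k * order) = 1`, so `N ∣ k * order`, i.e. `μ ∣ order`
  (`μ * k = N`); then `μ * v.ord = m * order` gives `m ∣ v.ord`.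
-/

open UpperHalfPlane ModularForm CongruenceSubgroup AlgebraicCurve IntermediateField
open scoped MatrixGroups Manifold

namespace Fermat.Agent.TC24

open Fermat.Agent.S24 hiding constK constK_apply act_constK twist_mem_range_coeffMap_iff
  twist_mem_range qExpand_mem_range rootU_mem_range expandC_jq_mem_range btilGens Btil
  constK_mem_Btil act_jd_mem_Btil jd_mem_Btil act_mem_Btil actB coe_actB Jser fGens A0 Jser_mem_A0
  FN Btil_le_holSub Btil_le_perSub TInf_Btil_mem_range TInf_jd mem_Gamma0_of_act_jd_eq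
open Fermat.Agent.C24 (Kc iotaC iotaCinv iotaC_iotaCinv iotaCinv_iotaC mem_range_iotaC constK
  constK_apply act_constK twist_mem_range_coeffMap_iff twist_mem_range qExpand_mem_range
  rootU_mem_range expandC_jq_mem_range Jser)
open Fermat.Agent.T24 (Cond Gam mem_Gam Gam_le yv te tb Tq act_ye_eq_pre pre_yv_mem_perSub mdiff_yv
  act_te te_neg act_te_of_mem_Gam pos_of_mul_dvd eq_one_or_of_te_eq mem_Gam_of_act_eq
  finiteIndex_Gam finite_quot_Gam)

open Fermat.Agent.T24.NV

namespace Ch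

theorem divA_act_eq {N : ℕ} [Cond N] {χ : Chr N} (hs : SmallTriv N χ) {h : ℍ → ℂ} (he : IsEqv N χ h)
    {g ε : SL(2, ℤ)} (hmem : g⁻¹ * ε * g ∈ Gam N) (hsm : Fermat.Agent.S16.SmallTrace ε) :
    act ε (act g h) = act g h := by
  have h1 : χ ⟨g⁻¹ * ε * g, hmem⟩ = 1 := hs ⟨g⁻¹ * ε * g, hmem⟩ (smallTrace_conj g ε hsm)
  have h2 : act (g⁻¹ * ε * g) h = h := by
    have := he.act_eq ⟨g⁻¹ * ε * g, hmem⟩
    rw [h1] at this
    rw [this]
    funext z
    simp
  have h3 : ε * g = g * (g⁻¹ * ε * g) := by group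
  rw [← act_mul, h3, act_mul, h2]

theorem divA_smallTrace_S : Fermat.Agent.S16.SmallTrace ModularGroup.S := by
  unfold Fermat.Agent.S16.SmallTrace
  simp [ModularGroup.S, Matrix.trace_fin_two]

theorem divA_smallTrace_ST :
    Fermat.Agent.S16.SmallTrace (ModularGroup.S * ModularGroup.T) := by
  unfold Fermat.Agent.S16.SmallTrace
  decide

theorem divA_smallTrace_T_pow (k : ℕ) : Fermat.Agent.S16.SmallTrace (ModularGroup.T ^ k) := by
  unfold Fermat.Agent.S16.SmallTrace
  have := ModularGroup.coe_T_zpow (k : ℤ)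
  rw [zpow_natCast] at this
  rw [this]
  simp [Matrix.trace_fin_two]

/-- order of a fixed function at a fixed point of a stabiliser element with multiplier `ζ`. -/
theorem divA_zpow_eq_one (τ : ℍ) (ε : SL(2, ℤ)) (hε : ε • τ = τ) {H : ℍ → ℂ} (hH : H ∈ holSub)
    (h0 : H ≠ 0) (hfix : act ε H = H) :
    (((((ε⁻¹ : SL(2, ℤ)) 1 0 : ℤ) : ℂ) * τ + (((ε⁻¹ : SL(2, ℤ)) 1 1 : ℤ) : ℂ)) ^ (-2 : ℤ))
      ^ (TPt τ ⟨H, hH⟩).order = 1 := by
  have hne : (⟨H, hH⟩ : holSub) ≠ 0 := fun h => h0 (congrArg Subtype.val h)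
  have h1 := (TPt_act τ ε hε ⟨H, hH⟩ hne).2
  have h2 : (⟨act ε H, act_mem_holSub ε hH⟩ : holSub) = ⟨H, hH⟩ := Subtype.ext hfix
  simp only at h1
  rw [h2, zpow_mul] at h1
  have h3 : (TPt τ ⟨H, hH⟩).leadingCoeff ≠ 0 := by
    rw [Ne, HahnSeries.leadingCoeff_eq_zero]
    exact fun h => hne (TPt_injective τ (h.trans (map_zero _).symm))
  exact (mul_right_cancel₀ h3 (h1.symm.trans (one_mul _).symm))

theorem divA_iterate_twist (u : ℂˣ) (x : LaurentSeries ℂ) (k : ℕ) :
    ((twist u)^[k] x).order = x.order ∧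
      ((twist u)^[k] x).leadingCoeff = ((u : ℂ) ^ x.order) ^ k * x.leadingCoeff := by
  induction k with
  | zero => simp
  | succ k ih =>
    rw [Function.iterate_succ_apply']
    refine ⟨by rw [order_twist, ih.1], ?_⟩
    rw [leadingCoeff_twist, ih.1, ih.2, pow_succ]
    ring

theorem divA_TInf_act_T_pow (N : ℕ) [NeZero N] [Cond N] {H : ℍ → ℂ} (hH : H ∈ perSub N) (k : ℕ) :
    ∃ hk : act (ModularGroup.T ^ k) H ∈ perSub N,
      TInf N ⟨act (ModularGroup.T ^ k) H, hk⟩ = (twist (rootU N (-1)))^[k] (TInf N ⟨H, hH⟩) := by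
  induction k with
  | zero =>
    have e : act (ModularGroup.T ^ 0) H = H := by rw [pow_zero, act_one]
    refine ⟨e.symm ▸ hH, ?_⟩
    rw [Function.iterate_zero, id]
    exact congrArg (TInf N) (Subtype.ext e)
  | succ k ih =>
    obtain ⟨hk, hk'⟩ := ih
    have e : act (ModularGroup.T ^ (k + 1)) H = act ModularGroup.T (act (ModularGroup.T ^ k) H) := by
      rw [pow_succ', act_mul]
    refine ⟨e.symm ▸ act_T_mem_perSub hk, ?_⟩
    rw [Function.iterate_succ_apply', ← hk', ← TInf_act_T N ⟨_, hk⟩]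
    exact congrArg (TInf N) (Subtype.ext e)

theorem HasChar.divBy {N : ℕ} [NeZero N] [Cond N] {m : ℕ} (hm : 0 < m) {f : FN N} {χ : Chr N}
    (h : HasChar N m f χ) (hs : SmallTriv N χ) : DivBy N m f := by
  obtain ⟨a, w, h, ha, hw, e, ⟨hh, hroot⟩, he⟩ := h
  intro v
  have hta : thetaIncl N a ≠ 0 := fun h0 => ha (thetaIncl_injective N (h0.trans (map_zero _).symm))
  have hf : f ≠ 0 := by
    rintro rfl
    rw [zero_mul] at e
    exact hta e
  have hord : v.ord (thetaIncl N a) = v.ord f + m * v.ord w := by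
    rw [e, v.ord_mul hf (pow_ne_zero _ hw), ord_pow]
  suffices hsuff : (m : ℤ) ∣ v.ord (thetaIncl N a) by
    rw [hord] at hsuff
    exact (Int.dvd_add_left (Dvd.intro _ rfl)).mp hsuff
  have hh0 : h ≠ 0 := by
    rintro rfl
    apply ha
    apply PhiB_injective N
    apply Subtype.ext
    funext z
    rw [← hroot z]
    simp [hm.ne']
  have hpow : ∀ g : SL(2, ℤ), ((actB N g (PhiB N a) : Btil N) : ℍ → ℂ) = act g h ^ m := by
    intro g
    rw [coe_actB, ← map_pow]
    congr 1
    funext z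
    exact (hroot z).symm
  have hH : ∀ g : SL(2, ℤ), act g h ∈ holSub := fun g => act_mem_holSub g hh
  have hH0 : ∀ g : SL(2, ℤ), act g h ≠ 0 := fun g h0 =>
    hh0 (theta_act_injective g (h0.trans (map_zero _).symm))
  have hpt : ∀ (τ : ℍ) (g : SL(2, ℤ)), (theta N (ptChart N τ) g (thetaIncl N a)).order =
      m * (TPt τ ⟨act g h, hH g⟩).order := by
    intro τ g
    rw [theta_incl, CardsC.ptChart_onB]
    have : (⟨((actB N g (PhiB N a) : Btil N) : ℍ → ℂ), Btil_le_holSub N (actB N g (PhiB N a)).2⟩ :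
        holSub) = ⟨act g h, hH g⟩ ^ m := Subtype.ext (hpow g)
    rw [this, map_pow, HahnSeries.order_pow, nsmul_eq_mul]
  rcases exists_chart N v with ⟨τ, g, hg⟩ | ⟨g, hgm, hg⟩ | ⟨g, hgm, hg⟩ | ⟨g, k, μ, hk, hgm, hμ, hg⟩
  · rw [← hg _ hta, hpt]
    exact Dvd.intro _ rfl
  · have h1 := hg _ hta
    rw [hpt] at h1
    have h2 := divA_zpow_eq_one I ModularGroup.S S_smul_I (hH g) (hH0 g)
      (divA_act_eq hs he hgm divA_smallTrace_S)
    rw [multiplier_S] at h2
    have h3 : Even (TPt I ⟨act g h, hH g⟩).order := by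
      by_contra hodd
      rw [Int.not_even_iff_odd] at hodd
      rw [hodd.neg_one_zpow] at h2
      norm_num at h2
    obtain ⟨o, ho⟩ := h3
    rw [ho] at h1
    exact ⟨o, by linarith⟩
  · have h1 := hg _ hta
    rw [hpt] at h1
    have h2 := divA_zpow_eq_one rhoPt (ModularGroup.S * ModularGroup.T) ST_smul_rhoPt (hH g) (hH0 g)
      (divA_act_eq hs he hgm divA_smallTrace_ST)
    obtain ⟨o, ho⟩ := (multiplier_ST.zpow_eq_one_iff_dvd _).mp h2
    rw [ho] at h1
    push_cast at h1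
    exact ⟨o, by linarith⟩
  · have hWh : h ∈ Wh N := by
      refine mem_Wh_of_pow hm hs hh he ?_
      rw [mem_Wh]
      intro g'
      rw [map_pow, ← hpow g']
      exact Btil_le_perSub N (actB N g' (PhiB N a)).2
    have hHp : act g h ∈ perSub N := mem_Wh.mp hWh g
    have h1 := hg _ hta
    have h2 : (theta N (cuspChart N) g (thetaIncl N a)).order =
        m * (TInf N ⟨act g h, hHp⟩).order := by
      rw [theta_incl]
      have e1 : (cuspChart N).onB (actB N g (PhiB N a)) =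
          TInf N ⟨((actB N g (PhiB N a) : Btil N) : ℍ → ℂ),
            Btil_le_perSub N (actB N g (PhiB N a)).2⟩ := rfl
      have e2 : (⟨((actB N g (PhiB N a) : Btil N) : ℍ → ℂ),
          Btil_le_perSub N (actB N g (PhiB N a)).2⟩ : perSub N) = ⟨act g h, hHp⟩ ^ m :=
        Subtype.ext (hpow g)
      rw [e1, e2, map_pow, HahnSeries.order_pow, nsmul_eq_mul]
    rw [h2] at h1
    obtain ⟨hk', hk''⟩ := divA_TInf_act_T_pow N hHp k
    have hfix := divA_act_eq hs he hgm (divA_smallTrace_T_pow k)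
    have e3 : (⟨act (ModularGroup.T ^ k) (act g h), hk'⟩ : perSub N) = ⟨act g h, hHp⟩ :=
      Subtype.ext hfix
    rw [e3] at hk''
    have h3 := (divA_iterate_twist (rootU N (-1)) (TInf N ⟨act g h, hHp⟩) k).2
    rw [← hk''] at h3
    have h4 : (TInf N ⟨act g h, hHp⟩).leadingCoeff ≠ 0 := by
      rw [Ne, HahnSeries.leadingCoeff_eq_zero]
      intro h0
      exact hH0 g (congrArg Subtype.val (TInf_injective N (h0.trans (map_zero _).symm)))
    have h5 : (((rootU N (-1) : ℂˣ) : ℂ) ^ (TInf N ⟨act g h, hHp⟩).order) ^ k = 1 :=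
      mul_right_cancel₀ h4 (h3.symm.trans (one_mul _).symm)
    rw [← zpow_natCast, ← zpow_mul] at h5
    obtain ⟨o, ho⟩ := ((isPrimitiveRoot_rootU N).zpow_eq_one_iff_dvd _).mp h5
    have hk0 : (k : ℤ) ≠ 0 := by exact_mod_cast hk.ne'
    have hμ0 : μ ≠ 0 := by
      rintro rfl
      rw [zero_mul] at hμ
      exact NeZero.ne N (by exact_mod_cast hμ.symm)
    have h6 : (TInf N ⟨act g h, hHp⟩).order = μ * o := by
      apply mul_right_cancel₀ hk0
      rw [ho, ← hμ]
      ring
    rw [h6] at h1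
    refine ⟨o, mul_left_cancel₀ hμ0 ?_⟩
    rw [← h1]
    ring

end Ch

end Fermat.Agent.TC24
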