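import Fermat.Agent.S48.TNV.Kc.Basic
import Fermat.Agent.S48.TC24.Cards

set_option autoImplicit false

/-!
# NV task T6a-SmallE (TWIN FILE: read the header of `NV/Kc/Defs.lean`)

If `m ∣ div f`, the character of `f` is trivial on every element of `Γ₀(N)` which has a fixed point in `ℍ`.

SKETCH.  Data `(a, w, h)`; `DivBy N m (thetaIncl a)`.  Let `γ τ = τ`, `ε = γ`, `λ = ((ε⁻¹ 1 0) τ + (ε⁻¹ 1 1)) ^ (-2)` the multiplier of `TPt_act τ ε`.
(1) for every `u : A0 N`, `u ≠ 0`: `act γ (PhiB u) = PhiB u` (`act_PhiB`), so `TPt_act` gives `lc = λ ^ ord * lc`, `λ ^ (TPt τ (PhiB u)).order = 1`.  Hence `λ ^ (theta N (ptChart N τ) 1 f).order = 1`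
for all `f ≠ 0` (`f = u / w`, `theta_order_div`).
(2) if `(theta N (ptChart N τ) 1 f).order = 0` for all `f ≠ 0` then `(TPt τ h).order = 0` (`m * order h = order (PhiB a)`).  Otherwise `f ↦ (theta .. f).order` is an `IsVal` and
`IsVal.exists_place` gives `v`, `μ` with `order (theta f) = μ * v.ord f`; with `v.ord t = 1` (`exists_ord_eq_one`): `λ ^ μ = 1`; `m * order h = μ * v.ord (thetaIncl a) = μ * m * r`, so `order h = μ * r`.
In both cases `λ ^ (TPt τ h).order = 1`.
(3) `act γ h = (χ γ)⁻¹ • h` (`IsEqv.act_eq`) and `TPt_act` for `h`: `(χ γ)⁻¹ * lc = λ ^ order * lc = lc`, `lc ≠ 0`.  So `χ γ = 1`.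
(The file `NV/Kc/DivB.lean` contains the same `IsVal` argument.)
-/

open UpperHalfPlane ModularForm CongruenceSubgroup AlgebraicCurve IntermediateField
open scoped MatrixGroups Manifold

namespace Fermat.Agent.TC24

open Fermat.Agent.S24 hiding constK constK_apply act_constK twist_mem_range_coeffMap_iff
  twist_mem_range qExpand_mem_range rootU_mem_range expandC_jq_mem_range btilGens Btil
  constK_mem_Btil act_jd_mem_Btil jd_mem_Btil act_mem_Btil actB coe_actB Jser fGens A0 Jser_mem_A0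
  FN Btil_le_holSub Btil_le_perSub TInf_Btil_mem_range TInf_jd mem_Gamma0_of_act_jd_eq
open Fermat.Agent.C24 (Kc iotaC iotaCinv iotaC_iotaCinv iotaCinv_iotaC mem_range_iotaC constK
  constK_apply act_constK twist_mem_range_coeffMap_iff twist_mem_range qExpand_mem_range
  rootU_mem_range expandC_jq_mem_range Jser)
open Fermat.Agent.T24 (Cond Gam mem_Gam Gam_le yv te tb Tq act_ye_eq_pre pre_yv_mem_perSub mdiff_yv
  act_te te_neg act_te_of_mem_Gam pos_of_mul_dvd eq_one_or_of_te_eq mem_Gam_of_act_eq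
  finiteIndex_Gam finite_quot_Gam)

open Fermat.Agent.T24.NV

namespace Ch

namespace SmallE

/-- `PhiB N a` as a holomorphic function. -/
noncomputable def hol (N : ℕ) [NeZero N] [Cond N] (a : A0 N) : holSub :=
  ⟨(PhiB N a : ℍ → ℂ), Btil_le_holSub N (PhiB N a).2⟩

theorem hol_ne_zero (N : ℕ) [NeZero N] [Cond N] {a : A0 N} (ha : a ≠ 0) : hol N a ≠ 0 := by
  intro h
  apply ha
  apply PhiB_injective N
  rw [map_zero]
  apply Subtype.ext
  have := congrArg (fun x : holSub => x.1) h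
  exact this

theorem denom_ne (γ : SL(2, ℤ)) (τ : ℍ) : ((γ 1 0 : ℤ) : ℂ) * τ + ((γ 1 1 : ℤ) : ℂ) ≠ 0 := by
  have := UpperHalfPlane.denom_ne_zero (γ : GL (Fin 2) ℝ) τ
  simpa [UpperHalfPlane.denom] using this

theorem theta_eq (N : ℕ) [NeZero N] [Cond N] (τ : ℍ) (a : A0 N) :
    theta N (ptChart N τ) 1 (thetaIncl N a) = TPt τ (hol N a) := by
  rw [theta_incl, degree_actB_one, CardsC.ptChart_onB]
  rfl

theorem divBy_incl {N : ℕ} [NeZero N] [Cond N] {m : ℕ} {f w : FN N} {a : A0 N} (ha : a ≠ 0)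
    (hw' : w ≠ 0) (e : thetaIncl N a = f * w ^ m) (hd : DivBy N m f) : DivBy N m (thetaIncl N a) := by
  intro v
  have h0 : thetaIncl N a ≠ 0 := by
    intro h
    exact ha (thetaIncl_injective N (by rw [h, map_zero]))
  rw [e] at h0 ⊢
  have hf : f ≠ 0 := left_ne_zero_of_mul h0
  have hw : w ^ m ≠ 0 := right_ne_zero_of_mul h0
  rw [(isVal_ord v).map_mul _ _ hf hw, (isVal_ord v).map_pow hw']
  exact dvd_add (hd v) (dvd_mul_right _ _)

/-- the valuation attached to `τ`, or trivial. -/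
theorem exists_place_or (N : ℕ) [NeZero N] [Cond N] (τ : ℍ) :
    (∀ f : FN N, f ≠ 0 → (theta N (ptChart N τ) 1 f).order = 0) ∨
    ∃ (v : Place Kc (FN N)) (μ : ℤ), ∀ f : FN N, f ≠ 0 →
      (theta N (ptChart N τ) 1 f).order = μ * v.ord f := by
  by_cases h : ∀ f : FN N, f ≠ 0 → (theta N (ptChart N τ) 1 f).order = 0
  · exact Or.inl h
  right
  push Not at h
  have hne : ∀ f : FN N, f ≠ 0 → theta N (ptChart N τ) 1 f ≠ 0 := fun f hf => by
    rw [Ne, map_eq_zero]; exact hf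
  have hval : IsVal Kc (fun f : FN N => (theta N (ptChart N τ) 1 f).order) :=
    { map_mul := fun f g hf hg => by
        simp only [map_mul]
        exact HahnSeries.order_mul (hne f hf) (hne g hg)
      map_add := fun f g _ _ hfg => by
        simp only [map_add]
        apply HahnSeries.min_order_le_order_add
        rw [← map_add]
        exact hne _ hfg
      map_const := fun a _ => by
        simp only [theta_const]
        exact (HahnSeries.order_C).ge
      nontrivial := h }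
  obtain ⟨v, μ, -, hv, -⟩ := hval.exists_place
  exact ⟨v, μ, hv⟩

end SmallE

open SmallE in
theorem HasChar.eq_one_of_fixed {N : ℕ} [NeZero N] [Cond N] {m : ℕ} (hm : 0 < m) {f : FN N} {χ : Chr N}
    (h : HasChar N m f χ) (hd : DivBy N m f) (γ : Gam N) (τ : ℍ)
    (hτ : (γ : SL(2, ℤ)) • τ = τ) : χ γ = 1 := by
  obtain ⟨a, w, hh, ha, hw, e, ⟨hmd, hroot⟩, heqv⟩ := h
  have hda := divBy_incl ha hw e hd
  set ε : SL(2, ℤ) := (γ : SL(2, ℤ)) with hε
  set l0 : ℂ := ((((ε⁻¹ : SL(2, ℤ)) 1 0 : ℤ) : ℂ) * τ + (((ε⁻¹ : SL(2, ℤ)) 1 1 : ℤ) : ℂ)) with hl0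
  have hl00 : l0 ≠ 0 := denom_ne ε⁻¹ τ
  set Λ : ℂ := l0 ^ (-2 : ℤ) with hΛ
  have hΛ0 : Λ ≠ 0 := zpow_ne_zero _ hl00
  -- (1)
  have h1 : ∀ u : A0 N, u ≠ 0 → Λ ^ (TPt τ (hol N u)).order = 1 := by
    intro u hu
    have hact : (⟨act ε (hol N u).1, act_mem_holSub ε (hol N u).2⟩ : holSub) = hol N u := by
      apply Subtype.ext
      have := congrArg Subtype.val (act_PhiB N ε γ.2 u)
      rwa [coe_actB] at this
    have h2 := (TPt_act τ ε hτ (hol N u) (hol_ne_zero N hu)).2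
    rw [hact, zpow_mul] at h2
    have hlc : (TPt τ (hol N u)).leadingCoeff ≠ 0 := by
      rw [HahnSeries.leadingCoeff_ne_zero]
      intro h0
      exact hol_ne_zero N hu (TPt_injective τ (by rw [h0, map_zero]))
    exact (mul_right_cancel₀ hlc (by rw [one_mul]; exact h2)).symm
  have h1' : ∀ g : FN N, g ≠ 0 → Λ ^ (theta N (ptChart N τ) 1 g).order = 1 := by
    intro g hg
    obtain ⟨u, w', hw', hgu⟩ := thetaIncl_exists_div N g
    have hu : u ≠ 0 := by
      rintro rfl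
      apply hg
      rw [hgu, map_zero, zero_div]
    have n1 : TPt τ (hol N u) ≠ 0 := fun h0 =>
      hol_ne_zero N hu (TPt_injective τ (by rw [h0, map_zero]))
    have n2 : TPt τ (hol N w') ≠ 0 := fun h0 =>
      hol_ne_zero N hw' (TPt_injective τ (by rw [h0, map_zero]))
    rw [hgu, map_div₀, theta_eq, theta_eq, theta_order_div n1 n2, zpow_sub₀ hΛ0, h1 u hu,
      h1 w' hw', div_one]
  -- (2)
  set H : holSub := ⟨hh, hmd⟩ with hH
  have hHpow : H ^ m = hol N a := by
    apply Subtype.ext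
    funext z
    exact hroot z
  have hH0 : H ≠ 0 := by
    intro h0
    apply hol_ne_zero N ha
    rw [← hHpow, h0, zero_pow hm.ne']
  have hord : (m : ℤ) * (TPt τ H).order = (TPt τ (hol N a)).order := by
    rw [← hHpow, map_pow, HahnSeries.order_pow, nsmul_eq_mul]
  have hm0 : (m : ℤ) ≠ 0 := by exact_mod_cast hm.ne'
  have ha0 : thetaIncl N a ≠ 0 := fun h0 => ha (thetaIncl_injective N (by rw [h0, map_zero]))
  have h2 : Λ ^ (TPt τ H).order = 1 := by
    rcases exists_place_or N τ with htriv | ⟨v, μ, hv⟩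
    · have := htriv _ ha0
      rw [theta_eq, ← hord] at this
      rw [(mul_eq_zero.1 this).resolve_left hm0, zpow_zero]
    · obtain ⟨t, ht, ht0, -⟩ := exists_ord_eq_one v
      have hμ : Λ ^ μ = 1 := by
        have := h1' t ht0
        rwa [hv t ht0, ht, mul_one] at this
      obtain ⟨r, hr⟩ := hda v
      have h3 := hv _ ha0
      rw [theta_eq, ← hord, hr] at h3
      have h4 : (TPt τ H).order = μ * r := by
        apply mul_left_cancel₀ hm0
        rw [h3]; ring
      rw [h4, zpow_mul, hμ, one_zpow]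
  -- (3)
  have hact : (⟨act ε H.1, act_mem_holSub ε H.2⟩ : holSub)
      = ⟨fun _ => (((χ γ)⁻¹ : ℂˣ) : ℂ),
          (show (fun _ : ℍ => (((χ γ)⁻¹ : ℂˣ) : ℂ)) ∈ holSub from mdifferentiable_const)⟩ * H := by
    apply Subtype.ext
    exact heqv.act_eq γ
  have h3 := (TPt_act τ ε hτ H hH0).2
  rw [hact, map_mul, TPt_const, HahnSeries.leadingCoeff_mul, zpow_mul, h2, one_mul] at h3
  have hlc : (TPt τ H).leadingCoeff ≠ 0 := by
    rw [HahnSeries.leadingCoeff_ne_zero]
    intro h0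
    exact hH0 (TPt_injective τ (by rw [h0, map_zero]))
  have h4 : (HahnSeries.C (((χ γ)⁻¹ : ℂˣ) : ℂ) : LaurentSeries ℂ).leadingCoeff = 1 :=
    mul_right_cancel₀ hlc (by rw [one_mul]; exact h3)
  have h5 : (((χ γ)⁻¹ : ℂˣ) : ℂ) = 1 := by
    rw [← h4]
    exact (HahnSeries.leadingCoeff_of_single).symm
  have h6 : (χ γ)⁻¹ = 1 := Units.ext h5
  exact inv_eq_one.1 h6

end Ch

end Fermat.Agent.TC24
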